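import Mathlib
import Fermat.Agent.MU.Lib.BadRed.Nodal.Deuring2.Main

section MergeWrap_E_Desc_Kp_Eval -- from E/Desc/Kp/Eval.lean

set_option autoImplicit false
set_option linter.unusedSectionVars false
set_option linter.unusedVariables false

noncomputable section

open AlgebraicCurve Fermat.Agent.RR Fermat.Agent.Deuring Fermat.Agent.BadRed

namespace Fermat.Agent.EKp

variable {K F k Fk₁ Fk₂ : Type*} [Field K] [Field F] [Algebra K F]
  [Field k] [Field Fk₁] [Algebra k Fk₁] [Field Fk₂] [Algebra k Fk₂] {ι : Type*} [Fintype ι]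

/-! ### generalities on values at a place -/

section General

variable {k' F' : Type*} [Field k'] [Field F'] [Algebra k' F']

/-- a function with a nonzero value at `Q` is not zero. -/
theorem ev_ne_zero_of_valAt {Q : Place k' F'} {f : F'} {c : k'} (h : ValAt Q f c) (hc : c ≠ 0) :
    f ≠ 0 := by
  rintro rfl
  exact hc (h.unique (valAt_zero Q))

/-- the value of the inverse. -/
theorem ev_valAt_inv {Q : Place k' F'} {f : F'} {c : k'} (h : ValAt Q f c) (hc : c ≠ 0) :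
    ValAt Q f⁻¹ c⁻¹ := by
  have hf0 : f ≠ 0 := ev_ne_zero_of_valAt h hc
  have hord : Q.ord f = 0 := Gluing.ord_eq_zero_of_valAt h hc
  have hca : algebraMap k' F' c ≠ 0 := (map_ne_zero (algebraMap k' F')).mpr hc
  rcases h with h | h
  · left
    rw [h, map_inv₀]
  · right
    have hne : f - algebraMap k' F' c ≠ 0 := by
      intro h0
      rw [h0, Place.ord_zero] at h
      exact lt_irrefl _ h
    have e : f⁻¹ - algebraMap k' F' c⁻¹ =
        -((f - algebraMap k' F' c) * (f⁻¹ * (algebraMap k' F' c)⁻¹)) := by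
      rw [map_inv₀]
      field_simp
      ring
    rw [e, rn_ord_neg, Q.ord_mul hne (mul_ne_zero (inv_ne_zero hf0) (inv_ne_zero hca)),
      Q.ord_mul (inv_ne_zero hf0) (inv_ne_zero hca), Q.ord_inv, Q.ord_inv, hord,
      Fermat.Agent.S24Res.ord_algebraMap]
    omega

/-- constants lie in `L(D)` for `D ≥ 0`. -/
theorem ev_algebraMap_mem {D : Divisor k' F'} (hD : 0 ≤ D) (c : k') :
    algebraMap k' F' c ∈ riemannRochSpace D := by
  have h := Submodule.smul_mem (riemannRochSpace D) c (td_one_mem hD)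
  rwa [Algebra.smul_def, mul_one] at h

end General

/-! ### the node of a place of type N -/

section Seed

variable (N : NodalSeed K F k Fk₁ Fk₂ ι)

/-- the reductions of `f` take the value `c` on both branches of the node `i`. -/
def NodeValAt (i : ι) (f : F) (c : k) : Prop :=
  ValAt (N.s₁ i) (N.S₁.red f) c ∧ ValAt (N.s₂ i) (N.S₂.red f) c

/-- `P` is a place of type N and `i` is its node. -/
def IsNodeOf (P : Place K F) (i : ι) : Prop :=
  N.rmap P = none ∧ ∀ m : ℕ, N.m₁ ≤ m →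
    N.toNodalCore.V (m • N.D₀ - Finsupp.single P 1) =
      nodalRR N.s₁ N.s₂ (m • N.R₁ - Finsupp.single (N.s₁ i) 1) (m • N.R₂)

variable {N}

theorem NodeValAt.unique {i : ι} {f : F} {c d : k} (h : NodeValAt N i f c)
    (h' : NodeValAt N i f d) : c = d :=
  h.1.unique h'.1

theorem nodeValAt_one (i : ι) : NodeValAt N i 1 1 := by
  refine ⟨?_, ?_⟩
  · rw [N.S₁.red_one]
    exact td_valAt_one _
  · rw [N.S₂.red_one]
    exact td_valAt_one _

theorem NodeValAt.mul {i : ι} {f g : F} {c d : k} (hf₁ : f ∈ N.S₁.Ov) (hf₂ : f ∈ N.S₂.Ov)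
    (hg₁ : g ∈ N.S₁.Ov) (hg₂ : g ∈ N.S₂.Ov) (hf : NodeValAt N i f c) (hg : NodeValAt N i g d) :
    NodeValAt N i (f * g) (c * d) := by
  refine ⟨?_, ?_⟩
  · rw [N.S₁.red_mul hf₁ hg₁]
    exact Gluing.valAt_mul hf.1 hg.1
  · rw [N.S₂.red_mul hf₂ hg₂]
    exact Gluing.valAt_mul hf.2 hg.2

theorem NodeValAt.pow {i : ι} {f : F} {c : k} (hf₁ : f ∈ N.S₁.Ov) (hf₂ : f ∈ N.S₂.Ov)
    (hf : NodeValAt N i f c) (n : ℕ) : NodeValAt N i (f ^ n) (c ^ n) := by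
  refine ⟨?_, ?_⟩
  · rw [N.S₁.red_pow hf₁]
    exact Gluing.valAt_pow hf.1 n
  · rw [N.S₂.red_pow hf₂]
    exact Gluing.valAt_pow hf.2 n

/-- every place of type N has a node. -/
theorem exists_isNodeOf [Infinite k] {P : Place K F} (hP : N.rmap P = none) :
    ∃ i, IsNodeOf N P i := by
  obtain ⟨f, hf, hf₁, hf₂, hn⟩ := NodalSeed.rmap_eq_none_iff.mp hP
  obtain ⟨i, hi⟩ := N.td_eqN hf hf₁ hf₂ hn
  exact ⟨i, hP, hi⟩

/-- the places of type N are not in the support of `D₀`. -/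
theorem D₀_apply_of_rmap_eq_none [Infinite k] {P : Place K F} (hP : N.rmap P = none) :
    N.D₀ P = 0 := by
  by_contra h
  obtain ⟨f, hf, hf₁, hf₂, hn⟩ := NodalSeed.rmap_eq_none_iff.mp hP
  exact N.td_suppN h hf hf₁ hf₂ hn

/-- the elements of `L_C(m R₁ - s₁ i, m R₂)` vanish on both branches of the node `i`. -/
theorem valAt_zero_of_mem_nodalRR {m : ℕ} {i : ι} {a : Fk₁} {b : Fk₂}
    (h : ((a, b) : Fk₁ × Fk₂) ∈
      nodalRR N.s₁ N.s₂ (m • N.R₁ - Finsupp.single (N.s₁ i) 1) (m • N.R₂)) :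
    ValAt (N.s₁ i) a 0 ∧ ValAt (N.s₂ i) b 0 := by
  obtain ⟨h1, h2, h3⟩ := h
  have hv : VanAt (N.s₁ i) a := by
    rcases (mem_riemannRochSpace_iff.mp h1) (N.s₁ i) with h0 | h0
    · exact Or.inl h0
    · right
      rw [Finsupp.sub_apply, N.smul_R₁_node, Finsupp.single_eq_same] at h0
      have h0' : -(0 - 1 : ℤ) ≤ (N.s₁ i).ord a := h0
      omega
  have hv' : ValAt (N.s₁ i) a 0 := (valAt_zero_right_iff _ _).mpr hv
  obtain ⟨c, hc1, hc2⟩ := h3 i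
  have hc0 : c = 0 := hc1.unique hv'
  rw [hc0] at hc2
  exact ⟨hv', hc2⟩

/-- the node of a place of type N is unique. -/
theorem IsNodeOf.unique [Infinite k] {P : Place K F} {i j : ι} (hi : IsNodeOf N P i)
    (hj : IsNodeOf N P j) : i = j := by
  classical
  by_contra hij
  have hbig₁ := N.big₁ (le_refl N.m₁)
  have hbig₂ := N.big₂ (le_refl N.m₁)
  have hg := Int.natCast_nonneg (genusFF K F)
  have hg₁ := Int.natCast_nonneg (genusFF k Fk₁)
  have hg₂ := Int.natCast_nonneg (genusFF k Fk₂)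
  obtain ⟨u, hu, -, -, hu₁, -, -, -⟩ := exists_nodal_pair N.S₁.hFk N.S₂.hFk N.s₁ N.s₂
    N.s₁_inj N.s₂_inj (N.m₁ • N.R₁) (N.m₁ • N.R₂) (N.smul_R₁_node _) (N.smul_R₂_node _)
    ∅ ∅ (fun Q hQ => absurd hQ (Finset.notMem_empty Q))
    (fun Q hQ => absurd hQ (Finset.notMem_empty Q)) (by omega) (by omega)
    (fun l => if l = i then (0 : k) else 1)
  have hui : ValAt (N.s₁ i) u.1 0 := by simpa using hu₁ i
  have huj : ValAt (N.s₁ j) u.1 1 := by
    have := hu₁ j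
    rwa [if_neg (Ne.symm hij)] at this
  have hmem : u ∈ nodalRR N.s₁ N.s₂ (N.m₁ • N.R₁ - Finsupp.single (N.s₁ i) 1)
      (N.m₁ • N.R₂) := by
    refine ⟨td_mem_sub_single hu.1 ?_, hu.2.1, hu.2.2⟩
    rcases (valAt_zero_right_iff _ _).mp hui with h0 | h0
    · exact Or.inl h0
    · right
      rw [N.smul_R₁_node]
      omega
  rw [← hi.2 _ (le_refl _), hj.2 _ (le_refl _)] at hmem
  have h0 := (valAt_zero_of_mem_nodalRR (a := u.1) (b := u.2) hmem).1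
  exact one_ne_zero (huj.unique h0)

/-! ### EVAL -/

/-- raising the level of an integral function. -/
theorem isInt_mono {M m : ℕ} (h : M ≤ m) {f : F} (hf : N.toNodalCore.IsInt (M • N.D₀) f) :
    N.toNodalCore.IsInt (m • N.D₀) f := by
  refine ⟨riemannRochSpace_mono ?_ hf.1, hf.2.1, hf.2.2⟩
  obtain ⟨d, rfl⟩ := Nat.exists_eq_add_of_le h
  rw [add_smul]
  exact le_add_of_nonneg_right (N.smul_D₀_nonneg d)

/-- the key step: a function of `𝔏(m D₀)` vanishing at a place of type N reduces to a pair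
vanishing at its node. -/
theorem nodeValAt_zero_of_vanAt [Infinite k] {M : ℕ} {g : F}
    (hg : N.toNodalCore.IsInt (M • N.D₀) g) {P : Place K F} {i : ι} (hi : IsNodeOf N P i)
    (hgP : VanAt P g) : NodeValAt N i g 0 := by
  have hMm : M ≤ max M N.m₁ := le_max_left _ _
  have hm₁ : N.m₁ ≤ max M N.m₁ := le_max_right _ _
  have hgm := isInt_mono hMm hg
  have hD₀P : ((max M N.m₁) • N.D₀) P = 0 := by
    rw [Finsupp.smul_apply, D₀_apply_of_rmap_eq_none hi.1, smul_zero]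
  have hg' : N.toNodalCore.IsInt ((max M N.m₁) • N.D₀ - Finsupp.single P 1) g := by
    refine ⟨td_mem_sub_single hgm.1 ?_, hgm.2.1, hgm.2.2⟩
    rcases hgP with h | h
    · exact Or.inl h
    · right
      rw [hD₀P]
      omega
  have hmem := N.toNodalCore.red₂_mem_V hg'
  rw [hi.2 _ hm₁, N.toNodalCore.red₂_def] at hmem
  exact valAt_zero_of_mem_nodalRR hmem

/-- **EVAL**, for the functions of `𝔏(M D₀)`. -/
theorem eval_isInt [Infinite k] {M : ℕ} {f : F} (hf : N.toNodalCore.IsInt (M • N.D₀) f)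
    {P : Place K F} {i : ι} (hi : IsNodeOf N P i) {c : K} (hc : ValAt P f c) :
    ∃ hcA : c ∈ N.S₁.A, NodeValAt N i f (N.S₁.res ⟨c, hcA⟩) := by
  have hcA : c ∈ N.S₁.A := by
    by_contra hcn
    obtain ⟨hinv, hres⟩ := N.S₁.res_inv_eq_zero hcn
    have hc0 : c ≠ 0 := fun h => hcn (h ▸ zero_mem _)
    have hinv₂ : c⁻¹ ∈ N.S₂.A := N.toNodalCore.mem_A₂ hinv
    have hgI : N.toNodalCore.IsInt (M • N.D₀) (c⁻¹ • f - 1) :=
      ⟨Submodule.sub_mem _ (Submodule.smul_mem _ _ hf.1) (td_one_mem (N.smul_D₀_nonneg M)),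
        sub_mem (N.S₁.smul_mem hinv hf.2.1) (one_mem _),
        sub_mem (N.S₂.smul_mem hinv₂ hf.2.2) (one_mem _)⟩
    have hgP : VanAt P (c⁻¹ • f - 1) := by
      have e : c⁻¹ • f - 1 = c⁻¹ • (f - algebraMap K F c) := by
        rw [smul_sub, Algebra.smul_def c⁻¹ (algebraMap K F c), ← map_mul, inv_mul_cancel₀ hc0,
          map_one]
      rw [e]
      exact ((valAt_iff_vanAt _ _ _).mp hc).smul _
    have h1 := (nodeValAt_zero_of_vanAt hgI hi hgP).1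
    have hred : N.S₁.red (c⁻¹ • f - 1) = algebraMap k Fk₁ (-1) := by
      rw [N.S₁.red_sub (N.S₁.smul_mem hinv hf.2.1) (one_mem _), N.S₁.red_smul hinv hf.2.1, hres,
        zero_smul, zero_sub, N.S₁.red_one, map_neg, map_one]
    rw [hred] at h1
    have h2 : (0 : k) = -1 := h1.unique (Gluing.valAt_algebraMap _ _)
    exact one_ne_zero (neg_eq_zero.mp h2.symm)
  refine ⟨hcA, ?_⟩
  have hcA₂ : c ∈ N.S₂.A := N.toNodalCore.mem_A₂ hcA
  have hgI : N.toNodalCore.IsInt (M • N.D₀) (f - algebraMap K F c) :=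
    ⟨Submodule.sub_mem _ hf.1 (ev_algebraMap_mem (N.smul_D₀_nonneg M) c),
      sub_mem hf.2.1 (N.S₁.algebraMap_mem hcA), sub_mem hf.2.2 (N.S₂.algebraMap_mem hcA₂)⟩
  have hgP : VanAt P (f - algebraMap K F c) := (valAt_iff_vanAt _ _ _).mp hc
  obtain ⟨k1, k2⟩ := nodeValAt_zero_of_vanAt hgI hi hgP
  have hr1 : N.S₁.red (f - algebraMap K F c) =
      N.S₁.red f - algebraMap k Fk₁ (N.S₁.res ⟨c, hcA⟩) := by
    rw [N.S₁.red_sub hf.2.1 (N.S₁.algebraMap_mem hcA), N.S₁.red_algebraMap hcA]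
  have hr2 : N.S₂.red (f - algebraMap K F c) =
      N.S₂.red f - algebraMap k Fk₂ (N.S₁.res ⟨c, hcA⟩) := by
    rw [N.S₂.red_sub hf.2.2 (N.S₂.algebraMap_mem hcA₂), N.S₂.red_algebraMap hcA₂,
      N.res_eq c hcA hcA₂]
  refine ⟨?_, ?_⟩
  · rw [valAt_iff_vanAt, ← hr1]
    exact (valAt_zero_right_iff _ _).mp k1
  · rw [valAt_iff_vanAt, ← hr2]
    exact (valAt_zero_right_iff _ _).mp k2

/-- for finitely many ordinary places `Q` with multiplicities `n Q` there is `H ∈ O₁ ∩ O₂` with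
the value `1` at the node `i`, vanishing to the order `n Q` at `Q`, with poles bounded by a
multiple of `D₀`. -/
theorem exists_node_unit [Infinite k] (i : ι) (n : Place K F → ℕ) (s : Finset (Place K F))
    (hs : ∀ P ∈ s, N.rmap P ≠ none) :
    ∃ (m : ℕ) (H : F), H ∈ N.S₁.Ov ∧ H ∈ N.S₂.Ov ∧ NodeValAt N i H 1 ∧
      ∀ Q : Place K F, -(m • N.D₀) Q ≤ Q.ord H ∧
        (Q ∈ s → (n Q : ℤ) - (m • N.D₀) Q ≤ Q.ord H) := by
  classical
  induction s using Finset.induction_on with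
  | empty =>
    refine ⟨0, 1, one_mem _, one_mem _, nodeValAt_one i, fun Q => ?_⟩
    have h1 : Q.ord (1 : F) = 0 := by
      have := Fermat.Agent.S24Res.ord_algebraMap Q (1 : K)
      rwa [map_one] at this
    rw [h1, zero_smul]
    refine ⟨by simp, fun h => absurd h (Finset.notMem_empty Q)⟩
  | insert P s hPs ih =>
    obtain ⟨m, H, hH₁, hH₂, hHv, hHord⟩ := ih (fun Q hQ => hs Q (Finset.mem_insert_of_mem hQ))
    have hP : N.rmap P ≠ none := hs P (Finset.mem_insert_self _ _)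
    obtain ⟨X, hX⟩ := Option.ne_none_iff_exists'.mp hP
    obtain ⟨m', h, hh, hh₁, hh₂⟩ := N.nodalType.node_unit P X hX i
    have hhv : NodeValAt N i h 1 := ⟨hh₁, hh₂⟩
    have hh0 : h ≠ 0 := N.S₁.ne_zero_of_red_ne_zero (ev_ne_zero_of_valAt hh₁ one_ne_zero)
    have hH0 : H ≠ 0 := N.S₁.ne_zero_of_red_ne_zero (ev_ne_zero_of_valAt hHv.1 one_ne_zero)
    refine ⟨n P * m' + m, h ^ n P * H, mul_mem (pow_mem hh.2.1 _) hH₁,
      mul_mem (pow_mem hh.2.2 _) hH₂, ?_, fun Q => ?_⟩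
    · have := (hhv.pow hh.2.1 hh.2.2 (n P)).mul (pow_mem hh.2.1 _) (pow_mem hh.2.2 _) hH₁ hH₂ hHv
      rwa [one_pow, one_mul] at this
    · have h1 := ((mem_riemannRochSpace_iff.mp hh.1) Q).resolve_left hh0
      rw [Finsupp.sub_apply, Finsupp.single_apply, Finsupp.smul_apply, nsmul_eq_mul] at h1
      obtain ⟨h2, h2'⟩ := hHord Q
      rw [Finsupp.smul_apply, nsmul_eq_mul] at h2 h2'
      rw [Q.ord_mul (pow_ne_zero _ hh0) hH0, Gluing.ord_pow_nat, Finsupp.smul_apply, nsmul_eq_mul]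
      have hn0 : (0 : ℤ) ≤ (n P : ℤ) := Int.natCast_nonneg _
      have hd0 : (0 : ℤ) ≤ N.D₀ Q := N.D₀_nonneg Q
      push_cast
      by_cases hQP : P = Q
      · subst hQP
        rw [if_pos rfl] at h1
        have h3 : (n P : ℤ) * (-((m' : ℤ) * N.D₀ P - 1)) ≤ (n P : ℤ) * P.ord h :=
          mul_le_mul_of_nonneg_left h1 hn0
        refine ⟨by nlinarith, fun _ => by nlinarith⟩
      · rw [if_neg hQP] at h1
        have h3 : (n P : ℤ) * (-((m' : ℤ) * N.D₀ Q - 0)) ≤ (n P : ℤ) * Q.ord h :=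
          mul_le_mul_of_nonneg_left h1 hn0
        refine ⟨by nlinarith, fun hQ => ?_⟩
        have hQs : Q ∈ s := (Finset.mem_insert.mp hQ).resolve_left (Ne.symm hQP)
        have h4 := h2' hQs
        nlinarith

/-- **EVAL**: `f ∈ O₁ ∩ O₂` without poles at the places of type N, `P` of type N with node `i`,
`f(P) = c`.  Then `c ∈ A` and the reductions of `f` take the value `res c` at the node `i`. -/
theorem eval [Infinite k] {f : F} (hf₁ : f ∈ N.S₁.Ov) (hf₂ : f ∈ N.S₂.Ov)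
    (hpole : ∀ P', N.rmap P' = none → 0 ≤ P'.ord f)
    {P : Place K F} {i : ι} (hi : IsNodeOf N P i) {c : K} (hc : ValAt P f c) :
    ∃ hcA : c ∈ N.S₁.A, NodeValAt N i f (N.S₁.res ⟨c, hcA⟩) := by
  classical
  rcases eq_or_ne f 0 with rfl | hf0
  · have hc0 : c = 0 := hc.unique (valAt_zero P)
    subst hc0
    refine ⟨zero_mem _, ?_⟩
    have h0 : N.S₁.res ⟨0, zero_mem _⟩ = 0 := map_zero N.S₁.res
    rw [h0]
    exact ⟨by rw [N.S₁.red_zero]; exact valAt_zero _, by rw [N.S₂.red_zero]; exact valAt_zero _⟩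
  set s : Finset (Place K F) :=
    (divOf N.S₁.hF f).support.filter (fun Q => Q.ord f < 0) with hs
  have hs_ord : ∀ Q ∈ s, N.rmap Q ≠ none := by
    intro Q hQ h
    have h1 := hpole Q h
    have h2 := (Finset.mem_filter.mp hQ).2
    omega
  obtain ⟨m, H, hH₁, hH₂, hHv, hHord⟩ :=
    exists_node_unit (N := N) i (fun Q => (-(Q.ord f)).toNat) s hs_ord
  have hH0 : H ≠ 0 := N.S₁.ne_zero_of_red_ne_zero (ev_ne_zero_of_valAt hHv.1 one_ne_zero)
  have hHI : N.toNodalCore.IsInt (m • N.D₀) H :=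
    ⟨mem_riemannRochSpace_iff.mpr fun Q => Or.inr (hHord Q).1, hH₁, hH₂⟩
  have hfHI : N.toNodalCore.IsInt (m • N.D₀) (f * H) := by
    refine ⟨mem_riemannRochSpace_iff.mpr fun Q => Or.inr ?_, mul_mem hf₁ hH₁, mul_mem hf₂ hH₂⟩
    rw [Q.ord_mul hf0 hH0]
    obtain ⟨h1, h1'⟩ := hHord Q
    by_cases hQ : Q.ord f < 0
    · have hne : (divOf N.S₁.hF f) Q ≠ 0 := by
        rw [divOf_apply]
        omega
      have hQs : Q ∈ s := Finset.mem_filter.mpr ⟨Finsupp.mem_support_iff.mpr hne, hQ⟩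
      have h3 := h1' hQs
      have h2 : (((-(Q.ord f)).toNat : ℕ) : ℤ) = -(Q.ord f) := Int.toNat_of_nonneg (by omega)
      simp only [h2] at h3
      omega
    · omega
  have hD₀P : (m • N.D₀) P = 0 := by
    rw [Finsupp.smul_apply, D₀_apply_of_rmap_eq_none hi.1, smul_zero]
  have hHP : 0 ≤ P.ord H := by
    have h1 := ((mem_riemannRochSpace_iff.mp hHI.1) P).resolve_left hH0
    rw [hD₀P] at h1
    omega
  obtain ⟨cH, hcH⟩ := Gluing.exists_valAt N.S₁.hF P hHP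
  obtain ⟨hcHA, hcHv⟩ := eval_isInt hHI hi hcH
  have hres1 : N.S₁.res ⟨cH, hcHA⟩ = 1 := hcHv.unique hHv
  obtain ⟨hccA, hccv⟩ := eval_isInt hfHI hi (Gluing.valAt_mul hc hcH)
  have hcH0 : cH ≠ 0 := by
    intro h0
    have e : (⟨cH, hcHA⟩ : N.S₁.A) = 0 := Subtype.ext h0
    rw [e, map_zero] at hres1
    exact zero_ne_one hres1
  have hcHinv : cH⁻¹ ∈ N.S₁.A := by
    by_contra hn
    obtain ⟨h', hres'⟩ := N.S₁.res_inv_eq_zero hn
    have e : (⟨cH⁻¹⁻¹, h'⟩ : N.S₁.A) = ⟨cH, hcHA⟩ := Subtype.ext (inv_inv cH)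
    rw [e, hres1] at hres'
    exact one_ne_zero hres'
  have hcA : c ∈ N.S₁.A := by
    have e : c = (c * cH) * cH⁻¹ := by
      rw [mul_assoc, mul_inv_cancel₀ hcH0, mul_one]
    rw [e]
    exact mul_mem hccA hcHinv
  refine ⟨hcA, ?_⟩
  have hresmul : N.S₁.res ⟨c * cH, hccA⟩ = N.S₁.res ⟨c, hcA⟩ := by
    have e : (⟨c * cH, hccA⟩ : N.S₁.A) = ⟨c, hcA⟩ * ⟨cH, hcHA⟩ := rfl
    rw [e, map_mul, hres1, mul_one]
  rw [hresmul] at hccv
  obtain ⟨-, -, d, hd₁, hd₂⟩ := N.nodalSetup.node f hf₁ hf₂ hpole i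
  have hd : NodeValAt N i f d := ⟨hd₁, hd₂⟩
  have hdc := (hd.mul hf₁ hf₂ hH₁ hH₂ hHv).unique hccv
  rw [mul_one] at hdc
  rw [← hdc]
  exact hd

/-- a function vanishing at the node on the first branch takes values in the maximal ideal at
the places of type N with this node. -/
theorem eval_res_eq_zero₁ [Infinite k] {f : F} (hf₁ : f ∈ N.S₁.Ov) (hf₂ : f ∈ N.S₂.Ov)
    (hpole : ∀ P', N.rmap P' = none → 0 ≤ P'.ord f)
    {P : Place K F} {i : ι} (hi : IsNodeOf N P i) {c : K} (hc : ValAt P f c)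
    (h0 : ValAt (N.s₁ i) (N.S₁.red f) 0) :
    ∃ hcA : c ∈ N.S₁.A, N.S₁.res ⟨c, hcA⟩ = 0 := by
  obtain ⟨hcA, hv⟩ := eval hf₁ hf₂ hpole hi hc
  exact ⟨hcA, hv.1.unique h0⟩

/-- the same on the second branch. -/
theorem eval_res_eq_zero₂ [Infinite k] {f : F} (hf₁ : f ∈ N.S₁.Ov) (hf₂ : f ∈ N.S₂.Ov)
    (hpole : ∀ P', N.rmap P' = none → 0 ≤ P'.ord f)
    {P : Place K F} {i : ι} (hi : IsNodeOf N P i) {c : K} (hc : ValAt P f c)
    (h0 : ValAt (N.s₂ i) (N.S₂.red f) 0) :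
    ∃ hcA : c ∈ N.S₁.A, N.S₁.res ⟨c, hcA⟩ = 0 := by
  obtain ⟨hcA, hv⟩ := eval hf₁ hf₂ hpole hi hc
  exact ⟨hcA, hv.2.unique h0⟩

/-- a nonzero element of the maximal ideal of `A` is not a unit. -/
theorem inv_notMem_of_res_eq_zero {Fk : Type*} [Field Fk] [Algebra k Fk]
    (S : ValSetup K F k Fk) {c : K} (hc0 : c ≠ 0) (hcA : c ∈ S.A)
    (h : S.res ⟨c, hcA⟩ = 0) : c⁻¹ ∉ S.A := by
  intro hinv
  have e : (⟨c, hcA⟩ * ⟨c⁻¹, hinv⟩ : S.A) = 1 := Subtype.ext (mul_inv_cancel₀ hc0)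
  have h1 := congrArg S.res e
  rw [map_mul, h, zero_mul, map_one] at h1
  exact zero_ne_one h1

/-- **EVAL for the `u`-datum**: `u` a unit of `O₁` whose reduction vanishes at the nodes `s₁ i`,
`ϖ / u` a unit of `O₂` whose reduction vanishes at the nodes `s₂ i`, `ϖ ∈ A`, all zeros and poles
of `u` ordinary.  Then at a place `P` of type N the value `c = u(P)` is not `0` and `c`, `ϖ / c`
lie in the maximal ideal of `A`:  `0 < v(u(P)) < v(ϖ)`. -/
theorem eval_u [Infinite k] {u : F} {ϖ : K} (hϖ : ϖ ∈ N.S₁.A)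
    (hu₁ : N.S₁.red u ≠ 0) (hu₂ : N.S₂.red (ϖ • u⁻¹) ≠ 0)
    (hord : ∀ P', N.rmap P' = none → P'.ord u = 0)
    {P : Place K F} {i : ι} (hi : IsNodeOf N P i)
    (h₁ : ValAt (N.s₁ i) (N.S₁.red u) 0) (h₂ : ValAt (N.s₂ i) (N.S₂.red (ϖ • u⁻¹)) 0)
    {c : K} (hc : ValAt P u c) :
    c ≠ 0 ∧ (∃ hcA : c ∈ N.S₁.A, N.S₁.res ⟨c, hcA⟩ = 0) ∧
      ∃ hcA' : ϖ * c⁻¹ ∈ N.S₁.A, N.S₁.res ⟨ϖ * c⁻¹, hcA'⟩ = 0 := by
  have hu0 : u ≠ 0 := N.S₁.ne_zero_of_red_ne_zero hu₁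
  have huO₁ : u ∈ N.S₁.Ov := N.S₁.mem_of_red_ne_zero hu₁
  have huinv₁ : u⁻¹ ∈ N.S₁.Ov := N.S₁.inv_mem_of_red_ne_zero hu₁
  have hw0 : ϖ • u⁻¹ ≠ 0 := N.S₂.ne_zero_of_red_ne_zero hu₂
  have hϖ0 : ϖ ≠ 0 := by
    rintro rfl
    exact hw0 (zero_smul _ _)
  have hwO₂ : ϖ • u⁻¹ ∈ N.S₂.Ov := N.S₂.mem_of_red_ne_zero hu₂
  have hwinv₂ : (ϖ • u⁻¹)⁻¹ ∈ N.S₂.Ov := N.S₂.inv_mem_of_red_ne_zero hu₂
  have hϖ₂ : ϖ ∈ N.S₂.A := N.toNodalCore.mem_A₂ hϖ
  have hϖa : algebraMap K F ϖ ≠ 0 := (map_ne_zero (algebraMap K F)).mpr hϖ0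
  have huO₂ : u ∈ N.S₂.Ov := by
    have e : u = ϖ • (ϖ • u⁻¹)⁻¹ := by
      rw [Algebra.smul_def, Algebra.smul_def, mul_inv, inv_inv, ← mul_assoc,
        mul_inv_cancel₀ hϖa, one_mul]
    rw [e]
    exact N.S₂.smul_mem hϖ₂ hwinv₂
  have hwO₁ : ϖ • u⁻¹ ∈ N.S₁.Ov := N.S₁.smul_mem hϖ huinv₁
  have hc0 : c ≠ 0 := by
    rintro rfl
    rcases (valAt_zero_right_iff _ _).mp hc with h | h
    · exact hu0 h
    · rw [hord P hi.1] at h
      exact lt_irrefl _ h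
  have hpole_u : ∀ P', N.rmap P' = none → 0 ≤ P'.ord u := fun P' hP' => (hord P' hP').ge
  have hpole_w : ∀ P', N.rmap P' = none → 0 ≤ P'.ord (ϖ • u⁻¹) := by
    intro P' hP'
    rw [Algebra.smul_def, P'.ord_mul hϖa (inv_ne_zero hu0), P'.ord_inv, hord P' hP',
      Fermat.Agent.S24Res.ord_algebraMap]
    simp
  have hcw : ValAt P (ϖ • u⁻¹) (ϖ * c⁻¹) := (ev_valAt_inv hc hc0).smul ϖ
  exact ⟨hc0, eval_res_eq_zero₁ huO₁ huO₂ hpole_u hi hc h₁,
    eval_res_eq_zero₂ hwO₁ hwO₂ hpole_w hi hcw h₂⟩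

/-- **EVAL for the `u`-datum**, existence form: at every place `P` of type N, `u` has a value
`c` with `0 < v(c) < v(ϖ)`. -/
theorem eval_u_exists [Infinite k] {u : F} {ϖ : K} (hϖ : ϖ ∈ N.S₁.A)
    (hu₁ : N.S₁.red u ≠ 0) (hu₂ : N.S₂.red (ϖ • u⁻¹) ≠ 0)
    (hord : ∀ P', N.rmap P' = none → P'.ord u = 0)
    (h₁ : ∀ i, ValAt (N.s₁ i) (N.S₁.red u) 0)
    (h₂ : ∀ i, ValAt (N.s₂ i) (N.S₂.red (ϖ • u⁻¹)) 0)
    (P : Place K F) (hP : N.rmap P = none) :
    ∃ c : K, ValAt P u c ∧ c ≠ 0 ∧ c ∈ N.S₁.A ∧ c⁻¹ ∉ N.S₁.A ∧ ϖ / c ∈ N.S₁.A ∧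
      (ϖ / c)⁻¹ ∉ N.S₁.A := by
  obtain ⟨i, hi⟩ := exists_isNodeOf hP
  obtain ⟨c, hc⟩ := Gluing.exists_valAt N.S₁.hF P (hord P hP).ge
  obtain ⟨hc0, ⟨hcA, hres⟩, ⟨hcA', hres'⟩⟩ := eval_u hϖ hu₁ hu₂ hord hi (h₁ i) (h₂ i) hc
  have hϖ0 : ϖ ≠ 0 := by
    rintro rfl
    exact N.S₂.ne_zero_of_red_ne_zero hu₂ (zero_smul _ _)
  refine ⟨c, hc, hc0, hcA, inv_notMem_of_res_eq_zero N.S₁ hc0 hcA hres, ?_, ?_⟩
  · rw [div_eq_mul_inv]
    exact hcA'
  · rw [div_eq_mul_inv]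
    exact inv_notMem_of_res_eq_zero N.S₁ (mul_ne_zero hϖ0 (inv_ne_zero hc0)) hcA' hres'

end Seed

/-! ### COUNT -/

section Count

/-- a divisor on a component which is `div z` at the smooth points and `0` at the nodes. -/
theorem degree_eq_neg_sum_nodes {k' F' : Type*} [Field k'] [Field F'] [Algebra k' F']
    (h : IsRRField k' F') (s : ι → Place k' F') (hs : Function.Injective s)
    (R : Divisor k' F') (z : F') (hnode : ∀ i, R (s i) = 0)
    (hsm : ∀ Q, (∀ i, Q ≠ s i) → R Q = Q.ord z) :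
    Divisor.degree R = -∑ i, (s i).ord z := by
  classical
  have key : R + ∑ i, Finsupp.single (s i) ((s i).ord z) = divOf h z := by
    ext Q
    rw [Finsupp.add_apply, Finsupp.finsetSum_apply, divOf_apply]
    by_cases hQ : ∀ i, Q ≠ s i
    · rw [hsm Q hQ, Finset.sum_eq_zero, add_zero]
      intro i _
      rw [Finsupp.single_apply, if_neg (Ne.symm (hQ i))]
    · push Not at hQ
      obtain ⟨i, rfl⟩ := hQ
      rw [hnode, zero_add, Finset.sum_eq_single i, Finsupp.single_eq_same]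
      · intro j _ hj
        rw [Finsupp.single_apply, if_neg (fun h => hj (hs h))]
      · intro h
        exact absurd (Finset.mem_univ i) h
  have hd := congrArg Divisor.degree key
  rw [map_add, degree_divOf, map_sum] at hd
  simp only [degree_single_one h] at hd
  linarith

/-- **COUNT (global)**, for any nodal package: for a unit `ψ` of `O₁` and of `O₂`, the number of
zeros minus the number of poles of `ψ` at the places of type N is the sum of the orders of the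
reductions of `ψ` at the nodes. -/
theorem count_none (N : NodalSetup K F k Fk₁ Fk₂ ι) {ψ : F} (hψ0 : ψ ≠ 0)
    (h₁ : ψ ∈ N.S₁.Ov) (h₁' : ψ⁻¹ ∈ N.S₁.Ov) (h₂ : ψ ∈ N.S₂.Ov) (h₂' : ψ⁻¹ ∈ N.S₂.Ov) :
    Finsupp.mapDomain N.r (divOf N.S₁.hF ψ) none =
      ∑ i, ((N.s₁ i).ord (N.S₁.red ψ) + (N.s₂ i).ord (N.S₂.red ψ)) := by
  have hdeg := Gluing.degree_eq_redDiv N (divOf N.S₁.hF ψ)
  rw [degree_divOf] at hdeg
  have e1 := degree_eq_neg_sum_nodes N.S₁.hFk N.s₁ N.s₁_inj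
    (Gluing.redDiv₁ N (divOf N.S₁.hF ψ)) (N.S₁.red ψ) (fun i => Gluing.redDiv₁_node N _ i)
    (fun Q hQ => by rw [Gluing.redDiv₁_apply]; exact N.push₁ ψ h₁ h₁' hψ0 Q hQ)
  have e2 := degree_eq_neg_sum_nodes N.S₂.hFk N.s₂ N.s₂_inj
    (Gluing.redDiv₂ N (divOf N.S₁.hF ψ)) (N.S₂.red ψ) (fun i => Gluing.redDiv₂_node N _ i)
    (fun Q hQ => by rw [Gluing.redDiv₂_apply]; exact N.push₂ ψ h₂ h₂' hψ0 Q hQ)
  rw [e1, e2] at hdeg
  rw [Finset.sum_add_distrib]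
  linarith

/-- `(r_* D)(none)` is the sum of the coefficients of `D` at the places of type N. -/
theorem mapDomain_none_eq_sum [DecidableEq (Option (Place k Fk₁ ⊕ Place k Fk₂))]
    (r : Place K F → Option (Place k Fk₁ ⊕ Place k Fk₂)) (D : Divisor K F) :
    Finsupp.mapDomain r D none = ∑ P ∈ D.support.filter (fun P => r P = none), D P := by
  rw [Fermat.Agent.S18Key.mapDomain_apply_eq_sum, Finset.sum_filter]
  refine Finset.sum_congr rfl fun P _ => ?_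
  congr

variable {N : NodalSeed K F k Fk₁ Fk₂ ι}

/-- **COUNT (global)** for the nodal package of a seed. -/
theorem count_seed [Infinite k] (N : NodalSeed K F k Fk₁ Fk₂ ι) {ψ : F}
    (hψ₁ : N.S₁.red ψ ≠ 0) (hψ₂ : N.S₂.red ψ ≠ 0) :
    Finsupp.mapDomain N.rmap (divOf N.S₁.hF ψ) none =
      ∑ i, ((N.s₁ i).ord (N.S₁.red ψ) + (N.s₂ i).ord (N.S₂.red ψ)) :=
  count_none N.nodalSetup (N.S₁.ne_zero_of_red_ne_zero hψ₁) (N.S₁.mem_of_red_ne_zero hψ₁)
    (N.S₁.inv_mem_of_red_ne_zero hψ₁) (N.S₂.mem_of_red_ne_zero hψ₂)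
    (N.S₂.inv_mem_of_red_ne_zero hψ₂)

/-- **COUNT (at one node)**: `ψ` a unit of `O₁` and of `O₂` without poles at the places of type
N, whose reduction does not vanish at the nodes `j ≠ i`.  Then all the zeros of type N of `ψ`
have the node `i`, and their number (with multiplicities) is
`ord_{s₁ i} (red₁ ψ) + ord_{s₂ i} (red₂ ψ)`. -/
theorem count_node [Infinite k] {ψ : F} (hψ₁ : N.S₁.red ψ ≠ 0) (hψ₂ : N.S₂.red ψ ≠ 0)
    (hpole : ∀ P, N.rmap P = none → 0 ≤ P.ord ψ) (i : ι)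
    (hne : ∀ j, j ≠ i → ¬ ValAt (N.s₁ j) (N.S₁.red ψ) 0) :
    (∀ P, N.rmap P = none → P.ord ψ ≠ 0 → IsNodeOf N P i) ∧
      Finsupp.mapDomain N.rmap (divOf N.S₁.hF ψ) none =
        (N.s₁ i).ord (N.S₁.red ψ) + (N.s₂ i).ord (N.S₂.red ψ) := by
  classical
  have hψ0 : ψ ≠ 0 := N.S₁.ne_zero_of_red_ne_zero hψ₁
  have hO₁ : ψ ∈ N.S₁.Ov := N.S₁.mem_of_red_ne_zero hψ₁
  have hO₂ : ψ ∈ N.S₂.Ov := N.S₂.mem_of_red_ne_zero hψ₂
  refine ⟨fun P hP hord => ?_, ?_⟩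
  · obtain ⟨j, hj⟩ := exists_isNodeOf hP
    have hpos : 0 < P.ord ψ := lt_of_le_of_ne (hpole P hP) (Ne.symm hord)
    have hv : ValAt P ψ 0 := (valAt_zero_right_iff _ _).mpr (Or.inr hpos)
    obtain ⟨h0A, hval⟩ := eval hO₁ hO₂ hpole hj hv
    have h0 : N.S₁.res ⟨0, h0A⟩ = 0 := map_zero N.S₁.res
    rw [h0] at hval
    have hji : j = i := by
      by_contra hji
      exact hne j hji hval.1
    rw [← hji]
    exact hj
  · have hc := count_none N.nodalSetup hψ0 hO₁ (N.S₁.inv_mem_of_red_ne_zero hψ₁) hO₂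
      (N.S₂.inv_mem_of_red_ne_zero hψ₂)
    have hc' : Finsupp.mapDomain N.rmap (divOf N.S₁.hF ψ) none =
        ∑ j, ((N.s₁ j).ord (N.S₁.red ψ) + (N.s₂ j).ord (N.S₂.red ψ)) := hc
    rw [hc', Finset.sum_eq_single i]
    · intro j _ hj
      obtain ⟨-, -, d, hd₁, hd₂⟩ := N.nodalSetup.node ψ hO₁ hO₂ hpole j
      have hd₁' : ValAt (N.s₁ j) (N.S₁.red ψ) d := hd₁
      have hd₂' : ValAt (N.s₂ j) (N.S₂.red ψ) d := hd₂
      have hd0 : d ≠ 0 := by
        rintro rfl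
        exact hne j hj hd₁'
      rw [Gluing.ord_eq_zero_of_valAt hd₁' hd0, Gluing.ord_eq_zero_of_valAt hd₂' hd0, add_zero]
    · intro h
      exact absurd (Finset.mem_univ i) h

end Count

end Fermat.Agent.EKp
end
end MergeWrap_E_Desc_Kp_Eval
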