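import Fermat.Agent.MU.Lib.BadRed.Nodal.Setup
import Fermat.Agent.MU.S17.RR.Genus0
import Fermat.Agent.S24.Residue

section MergeWrap_E_Desc_Kp_OrdToric -- from E/Desc/Kp/OrdToric.lean

/-!
# DESC-Kp, leaf KP-ORDT: ordinary torsion divisors are toric up to the factor `d`

Abstract nodal package `N : NodalSetup K F k Fk₁ Fk₂ ι` with both components of genus `0`, and
`u`-data: `u ∈ F`, `ϖ ∈ K` with `u ∈ O₁ˣ`, `ϖ / u ∈ O₂ˣ`, the reductions `red₁ u` and `red₂ (ϖ / u)`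
have order `ε i` at the node `i`, and `u` has no zeros or poles at the places of type N.
`(R1)`: every `c ∈ Kˣ` has a power `c ^ b`, `b ≥ 1`, with `v (c ^ b) = v (ϖ ^ a)`.

**ORDT** (`isW0Div_of_ordinary`): if `D` is an ordinary divisor and `n D = div g`, then `d • D` is a
`W₀`-divisor for the exponent `n`, `d = ∑ i, ε i`.  (Blueprint: NOTES/blueprint-E-DESC-Kp.md, section 4.)
-/

set_option autoImplicit false

noncomputable section

open AlgebraicCurve Fermat.Agent.RR Fermat.Agent.Deuring Fermat.Agent.BadRed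

namespace Fermat.Agent.EKp

/-! ### the special fibre: a function field of genus `0` with marked places -/

section Side

variable {k Fk : Type*} [Field k] [Field Fk] [Algebra k Fk] {ι : Type*} [Fintype ι]

theorem ordt_sum_single_apply_node (s : ι → Place k Fk) (hs : Function.Injective s) (c : ι → ℤ)
    (j : ι) : (∑ i, Finsupp.single (s i) (c i)) (s j) = c j := by
  classical
  rw [Finsupp.finsetSum_apply, Finset.sum_eq_single j]
  · rw [Finsupp.single_eq_same]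
  · intro i _ hij
    rw [Finsupp.single_apply, if_neg (fun h => hij (hs h))]
  · intro h; exact absurd (Finset.mem_univ j) h

theorem ordt_sum_single_apply_ne (s : ι → Place k Fk) (c : ι → ℤ) {Q : Place k Fk}
    (hQ : ∀ i, Q ≠ s i) : (∑ i, Finsupp.single (s i) (c i)) Q = 0 := by
  classical
  rw [Finsupp.finsetSum_apply]
  refine Finset.sum_eq_zero fun i _ => ?_
  rw [Finsupp.single_apply, if_neg (fun h => hQ i h.symm)]

theorem ordt_degree_sum_single (hFk : IsRRField k Fk) (s : ι → Place k Fk) (c : ι → ℤ) :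
    Divisor.degree (∑ i, Finsupp.single (s i) (c i)) = ∑ i, c i := by
  rw [map_sum]
  refine Finset.sum_congr rfl fun i _ => ?_
  rw [Divisor.degree_single, hFk.deg_one]
  simp

/-- **the genus `0` step**: `h` has order `n M(Q)` away from the nodes and `b ord_{s i} h = a ε i`
at the nodes; then `h ^ d` is a constant times an `n`-th power, `d = ∑ ε i`. -/
theorem ordt_side (hFk : IsRRField k Fk) (hg : genusFF k Fk = 0)
    (s : ι → Place k Fk) (hs : Function.Injective s) (ε : ι → ℕ)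
    (M : Divisor k Fk) (hM : ∀ i, M (s i) = 0)
    {h : Fk} (hh : h ≠ 0) {n : ℕ}
    (hsm : ∀ Q : Place k Fk, (∀ i, Q ≠ s i) → Q.ord h = n * M Q)
    {b : ℕ} (hb : 0 < b) (a : ℤ) (hnode : ∀ i, (b : ℤ) * (s i).ord h = a * ε i) :
    ∃ κ : k, κ ≠ 0 ∧ ∃ h' : Fk, h' ≠ 0 ∧ h ^ (∑ i, ε i) = algebraMap k Fk κ * h' ^ n := by
  classical
  set d : ℕ := ∑ i, ε i with hd
  set d1 : ℤ := Divisor.degree M with hd1
  -- the divisor of `h`
  have hE : divOf hFk h = (∑ i, Finsupp.single (s i) ((s i).ord h)) + (n : ℤ) • M := by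
    ext Q
    rw [divOf_apply, Finsupp.add_apply, Finsupp.smul_apply, smul_eq_mul]
    by_cases hQ : ∃ i, Q = s i
    · obtain ⟨j, rfl⟩ := hQ
      rw [ordt_sum_single_apply_node s hs, hM, mul_zero, add_zero]
    · push Not at hQ
      rw [ordt_sum_single_apply_ne s _ hQ, zero_add, hsm Q hQ]
  have hdeg : ∑ i, (s i).ord h + n * d1 = 0 := by
    have := degree_divOf hFk h
    rw [hE, map_add, ordt_degree_sum_single hFk, map_zsmul, smul_eq_mul] at this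
    rw [← this, hd1]
  have hbz : (b : ℤ) ≠ 0 := by exact_mod_cast hb.ne'
  have hsum : a * d = -(b * n * d1) := by
    have h1 : (b : ℤ) * ∑ i, (s i).ord h = a * d := by
      rw [Finset.mul_sum, hd]
      push_cast
      rw [Finset.mul_sum]
      exact Finset.sum_congr rfl fun i _ => hnode i
    have h2 : (b : ℤ) * (∑ i, (s i).ord h + n * d1) = 0 := by rw [hdeg, mul_zero]
    linear_combination h2 - h1
  have hnodes : ∀ i, (d : ℤ) * (s i).ord h = -(n * d1 * ε i) := by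
    intro i
    apply mul_left_cancel₀ hbz
    linear_combination (d : ℤ) * hnode i + (ε i : ℤ) * hsum
  -- the divisor `E'` with `n E' = d div h`
  set E' : Divisor k Fk := (d : ℤ) • M - d1 • ∑ i, Finsupp.single (s i) (ε i : ℤ) with hE'
  have hE'deg : Divisor.degree E' = 0 := by
    rw [hE', map_sub, map_zsmul, map_zsmul, ordt_degree_sum_single hFk, ← hd1, hd,
      smul_eq_mul, smul_eq_mul]
    push_cast
    ring
  have hE'ord : ∀ Q : Place k Fk, (n : ℤ) * E' Q = d * Q.ord h := by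
    intro Q
    rw [hE', Finsupp.sub_apply, Finsupp.smul_apply, Finsupp.smul_apply, smul_eq_mul,
      smul_eq_mul]
    by_cases hQ : ∃ i, Q = s i
    · obtain ⟨j, rfl⟩ := hQ
      rw [ordt_sum_single_apply_node s hs, hM, hnodes j]
      push_cast
      ring
    · push Not at hQ
      rw [ordt_sum_single_apply_ne s _ hQ, hsm Q hQ]
      push_cast
      ring
  obtain ⟨h', hh', hdiv⟩ := Fermat.Agent.S17.isPrincipal_of_genus_zero hFk hg hE'deg
  -- `h ^ d / h' ^ n` is a constant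
  have hφ0 : h ^ d * (h' ^ n)⁻¹ ≠ 0 :=
    mul_ne_zero (pow_ne_zero _ hh) (inv_ne_zero (pow_ne_zero _ hh'))
  have hφ : h ^ d * (h' ^ n)⁻¹ ∈ riemannRochSpace (0 : Divisor k Fk) := by
    rw [mem_riemannRochSpace_iff_le hFk hφ0, neg_zero, Finsupp.le_def]
    intro Q
    rw [Finsupp.coe_zero, Pi.zero_apply, divOf_apply,
      Q.ord_mul (pow_ne_zero _ hh) (inv_ne_zero (pow_ne_zero _ hh')), Q.ord_inv]
    have e1 : Q.ord (h ^ d) = d * Q.ord h := by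
      have := Q.ord_zpow h (d : ℤ)
      rwa [zpow_natCast] at this
    have e2 : Q.ord (h' ^ n) = n * Q.ord h' := by
      have := Q.ord_zpow h' (n : ℤ)
      rwa [zpow_natCast] at this
    have e3 := hE'ord Q
    rw [hdiv Q] at e3
    rw [e1, e2]
    linarith
  obtain ⟨κ, hκ⟩ := (mem_riemannRochSpace_zero_iff hFk _).mp hφ
  refine ⟨κ, ?_, h', hh', ?_⟩
  · rintro rfl
    rw [map_zero] at hκ
    exact hφ0 hκ.symm
  · rw [hκ, mul_assoc, inv_mul_cancel₀ (pow_ne_zero _ hh'), mul_one]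

end Side

/-! ### valuation rings and reductions: small lemmas -/

section Aux

variable {K F k Fk : Type*} [Field K] [Field F] [Algebra K F]
  [Field k] [Field Fk] [Algebra k Fk]

theorem ordt_zpow_mem (O : ValuationSubring F) {x : F} (hx : x ∈ O) (hx' : x⁻¹ ∈ O) (m : ℤ) :
    x ^ m ∈ O := by
  rcases m with m | m
  · rw [Int.ofNat_eq_natCast, zpow_natCast]; exact pow_mem hx m
  · rw [zpow_negSucc, ← inv_pow]; exact pow_mem hx' _

theorem ordt_red_zpow (S : ValSetup K F k Fk) {x : F} (hx : x ∈ S.Ov) (hx' : x⁻¹ ∈ S.Ov)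
    (hx0 : x ≠ 0) (m : ℤ) : S.red (x ^ m) = S.red x ^ m := by
  rcases m with m | m
  · rw [Int.ofNat_eq_natCast, zpow_natCast, zpow_natCast, S.red_pow hx]
  · rw [zpow_negSucc, zpow_negSucc, ← inv_pow, S.red_pow hx', S.red_inv hx hx' hx0, inv_pow]

theorem ordt_ord_pow {K F : Type*} [Field K] [Field F] [Algebra K F] (Q : Place K F) (f : F)
    (n : ℕ) : Q.ord (f ^ n) = n * Q.ord f := by
  have := Q.ord_zpow f (n : ℤ)
  rwa [zpow_natCast] at this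

/-- from `red G ^ d = κ h' ^ n` to the `W₀`-condition on one component. -/
theorem ordt_half (S : ValSetup K F k Fk) {g : F} {c : K} (hc : c ≠ 0)
    (hG : g * (algebraMap K F c)⁻¹ ∈ S.Ov) {d n : ℕ} {κ : k} (hκ : κ ≠ 0) {h' : Fk}
    (hh' : h' ≠ 0)
    (heq : S.red (g * (algebraMap K F c)⁻¹) ^ d = algebraMap k Fk κ * h' ^ n) :
    ∃ c₁ : K, c₁ ≠ 0 ∧ ∃ h₁ : Fk, h₁ ≠ 0 ∧ S.red (g ^ d / algebraMap K F c₁) = h₁ ^ n := by
  obtain ⟨⟨κ', hκ'A⟩, hres⟩ := S.res_surj κ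
  have hκF : algebraMap k Fk κ ≠ 0 := by
    rwa [Ne, map_eq_zero_iff _ (algebraMap k Fk).injective]
  have hred : S.red (algebraMap K F κ') = algebraMap k Fk κ := by
    rw [S.red_algebraMap hκ'A, hres]
  have hκ'0 : κ' ≠ 0 := by
    rintro rfl
    rw [map_zero, S.red_zero] at hred
    exact hκF hred.symm
  have hκ'F : algebraMap K F κ' ≠ 0 := by
    rwa [Ne, map_eq_zero_iff _ (algebraMap K F).injective]
  have hmem : algebraMap K F κ' ∈ S.Ov := S.algebraMap_mem hκ'A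
  have hinv : (algebraMap K F κ')⁻¹ ∈ S.Ov :=
    S.inv_mem_of_red_ne_zero (by rw [hred]; exact hκF)
  refine ⟨c ^ d * κ', mul_ne_zero (pow_ne_zero _ hc) hκ'0, h', hh', ?_⟩
  have e : g ^ d / algebraMap K F (c ^ d * κ')
      = (g * (algebraMap K F c)⁻¹) ^ d * (algebraMap K F κ')⁻¹ := by
    rw [map_mul, map_pow, div_eq_mul_inv, mul_inv, mul_pow, inv_pow, mul_assoc]
  rw [e, S.red_mul (pow_mem hG d) hinv, S.red_pow hG, heq, S.red_inv hmem hinv hκ'F, hred,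
    mul_comm (algebraMap k Fk κ), mul_assoc, mul_inv_cancel₀ hκF, mul_one]

end Aux

/-! ### ORDT -/

section Main

variable {K F k Fk₁ Fk₂ : Type*} [Field K] [Field F] [Algebra K F]
  [Field k] [Field Fk₁] [Algebra k Fk₁] [Field Fk₂] [Algebra k Fk₂] {ι : Type*} [Fintype ι]

/-- **ORDT**: an ordinary divisor `D` with `n D = div g` gives a `W₀`-divisor `d • D`,
`d = ∑ ε i`. -/
theorem isW0Div_of_ordinary (N : NodalSetup K F k Fk₁ Fk₂ ι)
    (hg₁ : genusFF k Fk₁ = 0) (hg₂ : genusFF k Fk₂ = 0)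
    {u : F} {ϖ : K} (ε : ι → ℕ) (hu0 : u ≠ 0) (hϖ : ϖ ≠ 0)
    (hu₁ : u ∈ N.S₁.Ov) (hu₁' : u⁻¹ ∈ N.S₁.Ov)
    (hw₂ : algebraMap K F ϖ * u⁻¹ ∈ N.S₂.Ov) (hw₂' : (algebraMap K F ϖ * u⁻¹)⁻¹ ∈ N.S₂.Ov)
    (hε₁ : ∀ i, (N.s₁ i).ord (N.S₁.red u) = ε i)
    (hε₂ : ∀ i, (N.s₂ i).ord (N.S₂.red (algebraMap K F ϖ * u⁻¹)) = ε i)
    (hord : ∀ P : Place K F, N.r P = none → P.ord u = 0)
    (hR1 : ∀ c : K, c ≠ 0 → ∃ (b : ℕ) (a : ℤ), 0 < b ∧
      N.S₁.A.valuation (c ^ b) = N.S₁.A.valuation (ϖ ^ a))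
    {n : ℕ} {D : Divisor K F} (hD : N.IsOrdDiv D) {g : F} (hg : g ≠ 0)
    (hgD : ∀ P : Place K F, P.ord g = n * D P) :
    N.IsW0Div n ((∑ i, ε i) • D) := by
  classical
  obtain ⟨c1, hc1, hG1, hG1'⟩ := N.S₁.scale g hg
  obtain ⟨c2, hc2, hG2, hG2'⟩ := N.S₂.scale g hg
  have hc1F : algebraMap K F c1 ≠ 0 := by
    rwa [Ne, map_eq_zero_iff _ (algebraMap K F).injective]
  have hc2F : algebraMap K F c2 ≠ 0 := by
    rwa [Ne, map_eq_zero_iff _ (algebraMap K F).injective]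
  have hϖF : algebraMap K F ϖ ≠ 0 := by
    rwa [Ne, map_eq_zero_iff _ (algebraMap K F).injective]
  set G1 : F := g * (algebraMap K F c1)⁻¹ with hG1def
  set G2 : F := g * (algebraMap K F c2)⁻¹ with hG2def
  have hG1ne : G1 ≠ 0 := mul_ne_zero hg (inv_ne_zero hc1F)
  have hG2ne : G2 ≠ 0 := mul_ne_zero hg (inv_ne_zero hc2F)
  set w : F := algebraMap K F ϖ * u⁻¹ with hw
  have hw0 : w ≠ 0 := mul_ne_zero hϖF (inv_ne_zero hu0)
  -- (R1)
  obtain ⟨b, a, hb, hval⟩ := hR1 (c2 / c1) (div_ne_zero hc2 hc1)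
  set η : K := (c2 / c1) ^ b * (ϖ ^ a)⁻¹ with hη
  have hϖa : ϖ ^ a ≠ 0 := zpow_ne_zero _ hϖ
  have hη0 : η ≠ 0 :=
    mul_ne_zero (pow_ne_zero _ (div_ne_zero hc2 hc1)) (inv_ne_zero hϖa)
  have hηv : N.S₁.A.valuation η = 1 := by
    rw [hη, map_mul, map_inv₀, hval, mul_inv_cancel₀]
    exact (Valuation.ne_zero_iff _).2 hϖa
  have hηA : η ∈ N.S₁.A := (ValuationSubring.valuation_le_one_iff _ _).1 hηv.le
  have hηA' : η⁻¹ ∈ N.S₁.A := by
    rw [← ValuationSubring.valuation_le_one_iff, map_inv₀, hηv, inv_one]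
  have hηA₂ : η ∈ N.S₂.A := N.A_eq ▸ hηA
  have hηA₂' : η⁻¹ ∈ N.S₂.A := N.A_eq ▸ hηA'
  have hηF : algebraMap K F η ≠ 0 := by
    rwa [Ne, map_eq_zero_iff _ (algebraMap K F).injective]
  have hηmem : algebraMap K F η ∈ N.S₂.Ov := N.S₂.algebraMap_mem hηA₂
  have hηmem' : (algebraMap K F η)⁻¹ ∈ N.S₂.Ov := by
    rw [← map_inv₀]; exact N.S₂.algebraMap_mem hηA₂'
  -- the function `f`
  set f : F := G1 ^ b * u ^ (-a) with hf
  have hf2 : f = G2 ^ b * algebraMap K F η * w ^ a := by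
    have e1 : algebraMap K F η
        = (algebraMap K F c2 / algebraMap K F c1) ^ b * ((algebraMap K F ϖ) ^ a)⁻¹ := by
      rw [hη, map_mul, map_pow, map_div₀, map_inv₀, map_zpow₀]
    have e2 : w ^ a = (algebraMap K F ϖ) ^ a * (u ^ a)⁻¹ := by
      rw [hw, mul_zpow, inv_zpow]
    have e3 : G2 * (algebraMap K F c2 / algebraMap K F c1) = G1 := by
      rw [hG1def, hG2def, div_eq_mul_inv, mul_assoc, ← mul_assoc _ (algebraMap K F c2),
        inv_mul_cancel₀ hc2F, one_mul]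
    have hΦ : (algebraMap K F ϖ) ^ a ≠ 0 := zpow_ne_zero _ hϖF
    calc f = (G2 * (algebraMap K F c2 / algebraMap K F c1)) ^ b
          * (((algebraMap K F ϖ) ^ a)⁻¹ * (algebraMap K F ϖ) ^ a) * (u ^ a)⁻¹ := by
          rw [e3, inv_mul_cancel₀ hΦ, mul_one, hf, zpow_neg]
      _ = G2 ^ b * algebraMap K F η * w ^ a := by
          rw [e1, e2, mul_pow]; ring
  have hGb₁ : G1 ^ b ∈ N.S₁.Ov := pow_mem hG1 b
  have hGb₁' : (G1 ^ b)⁻¹ ∈ N.S₁.Ov := by rw [← inv_pow]; exact pow_mem hG1' b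
  have hGb₂ : G2 ^ b ∈ N.S₂.Ov := pow_mem hG2 b
  have hGb₂' : (G2 ^ b)⁻¹ ∈ N.S₂.Ov := by rw [← inv_pow]; exact pow_mem hG2' b
  have hua : u ^ (-a) ∈ N.S₁.Ov := ordt_zpow_mem _ hu₁ hu₁' _
  have hua' : (u ^ (-a))⁻¹ ∈ N.S₁.Ov := by
    rw [← zpow_neg]; exact ordt_zpow_mem _ hu₁ hu₁' _
  have hwa : w ^ a ∈ N.S₂.Ov := ordt_zpow_mem _ hw₂ hw₂' _
  have hwa' : (w ^ a)⁻¹ ∈ N.S₂.Ov := by
    rw [← zpow_neg]; exact ordt_zpow_mem _ hw₂ hw₂' _
  have hf₁ : f ∈ N.S₁.Ov := mul_mem hGb₁ hua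
  have hf₁' : f⁻¹ ∈ N.S₁.Ov := by rw [hf, mul_inv]; exact mul_mem hGb₁' hua'
  have hf₂ : f ∈ N.S₂.Ov := by rw [hf2]; exact mul_mem (mul_mem hGb₂ hηmem) hwa
  have hf₂' : f⁻¹ ∈ N.S₂.Ov := by
    rw [hf2, mul_inv, mul_inv]; exact mul_mem (mul_mem hGb₂' hηmem') hwa'
  have hf0 : f ≠ 0 := mul_ne_zero (pow_ne_zero _ hG1ne) (zpow_ne_zero _ hu0)
  -- orders of `G1`
  have hordG : ∀ P : Place K F, P.ord G1 = n * D P := by
    intro P
    rw [hG1def, P.ord_mul hg (inv_ne_zero hc1F), P.ord_inv, Fermat.Agent.S24Res.ord_algebraMap,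
      neg_zero, add_zero, hgD]
  have hordG2 : ∀ P : Place K F, P.ord G2 = n * D P := by
    intro P
    rw [hG2def, P.ord_mul hg (inv_ne_zero hc2F), P.ord_inv, Fermat.Agent.S24Res.ord_algebraMap,
      neg_zero, add_zero, hgD]
  have hDN : ∀ P : Place K F, N.r P = none → D P = 0 := by
    intro P hP
    by_contra h0
    obtain ⟨Q, hQ⟩ := hD P h0
    rw [hP] at hQ
    cases hQ
  have hfN : ∀ P : Place K F, N.r P = none → P.ord f = 0 := by
    intro P hP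
    rw [hf, P.ord_mul (pow_ne_zero _ hG1ne) (zpow_ne_zero _ hu0), ordt_ord_pow, P.ord_zpow,
      hordG, hDN P hP, hord P hP]
    simp
  have hnf := N.node f hf₁ hf₂ (fun P hP => (hfN P hP).ge)
  have hnf' := N.node f⁻¹ hf₁' hf₂' (fun P hP => by rw [P.ord_inv, hfN P hP, neg_zero])
  -- reductions
  set h1 : Fk₁ := N.S₁.red G1 with hh1
  set h2 : Fk₂ := N.S₂.red G2 with hh2
  have hh1ne : h1 ≠ 0 := N.S₁.red_ne_zero hG1 hG1' hG1ne
  have hh2ne : h2 ≠ 0 := N.S₂.red_ne_zero hG2 hG2' hG2ne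
  have hu1ne : N.S₁.red u ≠ 0 := N.S₁.red_ne_zero hu₁ hu₁' hu0
  have hw2ne : N.S₂.red w ≠ 0 := N.S₂.red_ne_zero hw₂ hw₂' hw0
  have hηne : N.S₂.red (algebraMap K F η) ≠ 0 := N.S₂.red_ne_zero hηmem hηmem' hηF
  have hredf₁ : N.S₁.red f = h1 ^ b * N.S₁.red u ^ (-a) := by
    rw [hf, N.S₁.red_mul hGb₁ hua, N.S₁.red_pow hG1, ordt_red_zpow N.S₁ hu₁ hu₁' hu0]
  have hredf₂ : N.S₂.red f = h2 ^ b * N.S₂.red (algebraMap K F η) * N.S₂.red w ^ a := by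
    rw [hf2, N.S₂.red_mul (mul_mem hGb₂ hηmem) hwa, N.S₂.red_mul hGb₂ hηmem, N.S₂.red_pow hG2,
      ordt_red_zpow N.S₂ hw₂ hw₂' hw0]
  have hnode₁ : ∀ i, (b : ℤ) * (N.s₁ i).ord h1 = a * ε i := by
    intro i
    have h0 : (N.s₁ i).ord (N.S₁.red f) = 0 := by
      have p1 := (hnf i).1
      have p2 := (hnf' i).1
      rw [N.S₁.red_inv hf₁ hf₁' hf0, Place.ord_inv] at p2
      omega
    rw [hredf₁, Place.ord_mul _ (pow_ne_zero _ hh1ne) (zpow_ne_zero _ hu1ne), ordt_ord_pow,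
      Place.ord_zpow, hε₁] at h0
    linarith
  have hnode₂ : ∀ i, (b : ℤ) * (N.s₂ i).ord h2 = (-a) * ε i := by
    intro i
    have h0 : (N.s₂ i).ord (N.S₂.red f) = 0 := by
      have p1 := (hnf i).2.1
      have p2 := (hnf' i).2.1
      rw [N.S₂.red_inv hf₂ hf₂' hf0, Place.ord_inv] at p2
      omega
    have hconst : (N.s₂ i).ord (N.S₂.red (algebraMap K F η)) = 0 := by
      rw [N.S₂.red_algebraMap hηA₂, Fermat.Agent.S24Res.ord_algebraMap]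
    rw [hredf₂, Place.ord_mul _ (mul_ne_zero (pow_ne_zero _ hh2ne) hηne) (zpow_ne_zero _ hw2ne),
      Place.ord_mul _ (pow_ne_zero _ hh2ne) hηne, ordt_ord_pow, Place.ord_zpow, hε₂, hconst]
      at h0
    linarith
  -- push
  have hdivG1 : divOf N.S₁.hF G1 = (n : ℤ) • D := by
    ext P
    rw [divOf_apply, hordG, Finsupp.smul_apply, smul_eq_mul]
  have hdivG2 : divOf N.S₁.hF G2 = (n : ℤ) • D := by
    ext P
    rw [divOf_apply, hordG2, Finsupp.smul_apply, smul_eq_mul]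
  set M₁ : Divisor k Fk₁ := Finsupp.comapDomain (fun Q : Place k Fk₁ => some (Sum.inl Q))
    (Finsupp.mapDomain N.r D)
    (fun x _ y _ hxy => Sum.inl_injective (Option.some_injective _ hxy)) with hM₁
  set M₂ : Divisor k Fk₂ := Finsupp.comapDomain (fun Q : Place k Fk₂ => some (Sum.inr Q))
    (Finsupp.mapDomain N.r D)
    (fun x _ y _ hxy => Sum.inr_injective (Option.some_injective _ hxy)) with hM₂
  have hM₁node : ∀ i, M₁ (N.s₁ i) = 0 := by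
    intro i
    rw [hM₁, Finsupp.comapDomain_apply]
    exact Finsupp.mapDomain_of_notMem_range _ _ (by rintro ⟨P, hP⟩; exact N.r_ne_node₁ P i hP)
  have hM₂node : ∀ i, M₂ (N.s₂ i) = 0 := by
    intro i
    rw [hM₂, Finsupp.comapDomain_apply]
    exact Finsupp.mapDomain_of_notMem_range _ _ (by rintro ⟨P, hP⟩; exact N.r_ne_node₂ P i hP)
  have hsm₁ : ∀ Q : Place k Fk₁, (∀ i, Q ≠ N.s₁ i) → Q.ord h1 = n * M₁ Q := by
    intro Q hQ
    have := N.push₁ G1 hG1 hG1' hG1ne Q hQ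
    rw [hdivG1, Finsupp.mapDomain_smul, Finsupp.smul_apply, smul_eq_mul] at this
    rw [hh1, ← this, hM₁, Finsupp.comapDomain_apply]
  have hsm₂ : ∀ Q : Place k Fk₂, (∀ i, Q ≠ N.s₂ i) → Q.ord h2 = n * M₂ Q := by
    intro Q hQ
    have := N.push₂ G2 hG2 hG2' hG2ne Q hQ
    rw [hdivG2, Finsupp.mapDomain_smul, Finsupp.smul_apply, smul_eq_mul] at this
    rw [hh2, ← this, hM₂, Finsupp.comapDomain_apply]
  obtain ⟨κ₁, hκ₁, h₁', hh₁', heq₁⟩ :=
    ordt_side N.S₁.hFk hg₁ N.s₁ N.s₁_inj ε M₁ hM₁node hh1ne hsm₁ hb a hnode₁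
  obtain ⟨κ₂, hκ₂, h₂', hh₂', heq₂⟩ :=
    ordt_side N.S₂.hFk hg₂ N.s₂ N.s₂_inj ε M₂ hM₂node hh2ne hsm₂ hb (-a) hnode₂
  refine ⟨g ^ (∑ i, ε i), pow_ne_zero _ hg, ?_, ordt_half N.S₁ hc1 hG1 hκ₁ hh₁' heq₁,
    ordt_half N.S₂ hc2 hG2 hκ₂ hh₂' heq₂⟩
  intro P
  rw [ordt_ord_pow, hgD, Finsupp.smul_apply, nsmul_eq_mul]
  ring

/-- **ORDT**, in `Pic⁰`. -/
theorem mk_mem_W0_of_ordinary (N : NodalSetup K F k Fk₁ Fk₂ ι)
    (hg₁ : genusFF k Fk₁ = 0) (hg₂ : genusFF k Fk₂ = 0)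
    {u : F} {ϖ : K} (ε : ι → ℕ) (hu0 : u ≠ 0) (hϖ : ϖ ≠ 0)
    (hu₁ : u ∈ N.S₁.Ov) (hu₁' : u⁻¹ ∈ N.S₁.Ov)
    (hw₂ : algebraMap K F ϖ * u⁻¹ ∈ N.S₂.Ov) (hw₂' : (algebraMap K F ϖ * u⁻¹)⁻¹ ∈ N.S₂.Ov)
    (hε₁ : ∀ i, (N.s₁ i).ord (N.S₁.red u) = ε i)
    (hε₂ : ∀ i, (N.s₂ i).ord (N.S₂.red (algebraMap K F ϖ * u⁻¹)) = ε i)
    (hord : ∀ P : Place K F, N.r P = none → P.ord u = 0)
    (hR1 : ∀ c : K, c ≠ 0 → ∃ (b : ℕ) (a : ℤ), 0 < b ∧
      N.S₁.A.valuation (c ^ b) = N.S₁.A.valuation (ϖ ^ a))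
    {n : ℕ} (D : Divisor.degZero (K := K) (F := F)) (hD : N.IsOrdDiv (D : Divisor K F))
    {g : F} (hg : g ≠ 0) (hgD : ∀ P : Place K F, P.ord g = n * (D : Divisor K F) P) :
    (∑ i, ε i) • Pic0.mk D ∈ N.W0 n :=
  ⟨(∑ i, ε i) • D, rfl, by
    rw [AddSubgroup.coe_nsmul]
    exact isW0Div_of_ordinary N hg₁ hg₂ ε hu0 hϖ hu₁ hu₁' hw₂ hw₂' hε₁ hε₂ hord hR1 hD hg hgD⟩

end Main

end Fermat.Agent.EKp
end
end MergeWrap_E_Desc_Kp_OrdToric
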